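/-
P-DS (Deligne–Serre, S48), row DS-4a in the shape of `Fermat.Agent.H20.DS.RankinStatement`
(helper44): adapter from the landed elementary Rankin bound `Fermat.Agent.H41.rankin_partial_sum_bound`.
-/
import Fermat.Agent.H20.DS.Interfaces
import Fermat.Agent.H41.RankinBound

set_option autoImplicit false

noncomputable section

open CongruenceSubgroup
open scoped MatrixGroups

namespace Fermat.Agent.H44

/-- The constant coefficient of a cusp form on `Γ₁(N)` vanishes. -/
theorem ds_qCoeff_zero (N : ℕ) (k : ℤ) (f : CuspForm (Gamma1 N) k) :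
    ModularFormClass.qCoeff f 0 = 0 := by
  have h1 : (1 : ℝ) ∈ ((Gamma1 N : Subgroup SL(2, ℤ)) : Subgroup (GL (Fin 2) ℝ)).strictPeriods := by
    rw [CongruenceSubgroup.strictPeriods_Gamma1]
    exact AddSubgroup.mem_zmultiples 1
  exact CuspFormClass.qExpansion_coeff_zero f one_pos h1

/-- **DS-4a** (`Fermat.Agent.H20.DS.RankinStatement`): `∑_{n ≤ x} ‖aₙ‖² ≤ C x` for weight-one
cusp forms on `Γ₁(N)`. -/
theorem ds_rankinStatement : Fermat.Agent.H20.DS.RankinStatement := by
  intro N _ f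
  obtain ⟨C, -, hC⟩ := Fermat.Agent.H41.rankin_partial_sum_bound N f
  refine ⟨C, fun x => ?_⟩
  have hsplit : ∑ n ∈ Finset.range (x + 1), ‖ModularFormClass.qCoeff f n‖ ^ 2
      = ∑ n ∈ Finset.Icc 1 x, ‖ModularFormClass.qCoeff f n‖ ^ 2 := by
    rw [Finset.range_eq_Ico, Finset.sum_eq_sum_Ico_succ_bot (Nat.succ_pos x)]
    rw [ds_qCoeff_zero N 1 f]
    simp only [norm_zero, ne_eq, OfNat.ofNat_ne_zero, not_false_eq_true, zero_pow, zero_add]
    rfl
  rw [hsplit]
  exact hC x

end Fermat.Agent.H44
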