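/-
P-DS (Deligne–Serre, S48), rows DS-4b + DS-4d (helper44): the Euler product inequality
`EulerLogStatement` and the sharp Rankin bound `RankinSharpStatement`, in the shapes of
`Fermat.Agent.H20.DS`, UNCONDITIONALLY, from the landed elementary Rankin bound (helper41) and
the landed Dirichlet-series estimates (helper95).
-/
import Fermat.Agent.H44.DS.Rankin
import Fermat.Agent.H95.DS.Rankin

set_option autoImplicit false

noncomputable section

open CongruenceSubgroup Finset
open scoped MatrixGroups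

namespace Fermat.Agent.H44

open Fermat.Agent.H20.DS

/-- Multiplicativity of the coefficients of a Deligne–Serre eigenform on squarefree integers
prime to the level. -/
theorem ds_qCoeff_squarefree {N : ℕ} {ε : DirichletCharacter ℂ N} {f : CuspForm (Gamma1 N) 1}
    (hf : IsDSEigen N ε f) :
    ∀ n : ℕ, Squarefree n → n.Coprime N →
      ModularFormClass.qCoeff f n = ∏ p ∈ n.primeFactors, ModularFormClass.qCoeff f p := by
  intro n
  induction n using Nat.strong_induction_on with
  | _ n ih =>
    intro hsq hcop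
    rcases Nat.lt_or_ge n 2 with h | h
    · interval_cases n
      · exact absurd hsq not_squarefree_zero
      · simp [hf.one]
    · have hn1 : n ≠ 1 := by omega
      have hpp : (n.minFac).Prime := Nat.minFac_prime hn1
      obtain ⟨m, hm⟩ := Nat.minFac_dvd n
      have hm0 : m ≠ 0 := by
        rintro rfl
        rw [mul_zero] at hm
        omega
      have hpm : ¬ n.minFac ∣ m := by
        rintro ⟨k, hk⟩
        have hdvd : n.minFac * n.minFac ∣ n := ⟨k, by rw [mul_assoc, ← hk]; exact hm⟩
        exact hpp.not_isUnit (hsq _ hdvd)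
      have hpN : ¬ n.minFac ∣ N := by
        intro hd
        have h1 : n.minFac ∣ Nat.gcd n N := Nat.dvd_gcd (Nat.minFac_dvd n) hd
        rw [hcop.gcd_eq_one] at h1
        exact hpp.one_lt.ne' (Nat.dvd_one.mp h1)
      have hmn : m ∣ n := ⟨n.minFac, by rw [mul_comm]; exact hm⟩
      have hlt : m < n := by
        have h2 := hpp.two_le
        have hmpos : 0 < m := Nat.pos_of_ne_zero hm0
        calc m < n.minFac * m := by nlinarith
          _ = n := hm.symm
      have hsqm : Squarefree m := hsq.squarefree_of_dvd hmn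
      have hcopm : m.Coprime N := Nat.Coprime.coprime_dvd_left hmn hcop
      have hrel := hf.hecke n.minFac hpp hpN m
      rw [if_neg hpm, mul_zero, add_zero] at hrel
      have hpf : n.primeFactors = insert n.minFac m.primeFactors := by
        conv_lhs => rw [hm]
        rw [Nat.primeFactors_mul hpp.ne_zero hm0, hpp.primeFactors]
        rfl
      have hnotmem : n.minFac ∉ m.primeFactors := by
        intro hmem
        exact hpm (Nat.dvd_of_mem_primeFactors hmem)
      rw [hpf, Finset.prod_insert hnotmem, ← ih m hlt hsqm hcopm, ← hrel, ← hm]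

/-- The sequence `n ↦ ‖a_n‖²` of a Deligne–Serre eigenform satisfies the hypotheses of the
elementary Rankin estimates of `Fermat.Agent.H95.DS`. -/
theorem ds_rankin_hyps {N : ℕ} [NeZero N] {ε : DirichletCharacter ℂ N}
    {f : CuspForm (Gamma1 N) 1} (hf : IsDSEigen N ε f) :
    ∃ C : ℝ, 0 < C ∧
      (∀ x : ℕ, ∑ n ∈ range x, ‖ModularFormClass.qCoeff f (n + 1)‖ ^ 2 ≤ C * x) ∧
      (∀ n : ℕ, Squarefree n → n.Coprime N →
        ‖ModularFormClass.qCoeff f n‖ ^ 2
          = ∏ p ∈ n.primeFactors, ‖ModularFormClass.qCoeff f p‖ ^ 2) := by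
  obtain ⟨C, -, hC⟩ := Fermat.Agent.H41.rankin_partial_sum_bound N f
  have hA := Fermat.Agent.H95.DS.rankin_hyp_of_Icc
    (fun n => ‖ModularFormClass.qCoeff f n‖ ^ 2) C hC
  have hmul : ∀ n : ℕ, Squarefree n → n.Coprime N →
      ‖ModularFormClass.qCoeff f n‖ ^ 2
        = ∏ p ∈ n.primeFactors, ‖ModularFormClass.qCoeff f p‖ ^ 2 := by
    intro n hsq hcop
    rw [ds_qCoeff_squarefree hf n hsq hcop, norm_prod, Finset.prod_pow]
  have h1 : 1 ≤ C := Fermat.Agent.H95.DS.rankin_one_le_C
    (fun n => ‖ModularFormClass.qCoeff f n‖ ^ 2) C hA N hmul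
  exact ⟨C, by linarith, hA, hmul⟩

/-- **DS-4b** (`Fermat.Agent.H20.DS.EulerLogStatement`), unconditional. -/
theorem ds_eulerLogStatement : EulerLogStatement := by
  intro N _ ε f hf
  obtain ⟨C, hC0, hA, hmul⟩ := ds_rankin_hyps hf
  refine ⟨Real.log (2 * C), fun s hs hs2 P hP => ?_⟩
  have ha : ∀ n : ℕ, 0 ≤ (fun n => ‖ModularFormClass.qCoeff f n‖ ^ 2) n := fun n => by positivity
  have hpos : ∀ p ∈ P, 0 < 1 + ‖ModularFormClass.qCoeff f p‖ ^ 2 * (p : ℝ) ^ (-s) := by
    intro p _
    have : 0 ≤ ‖ModularFormClass.qCoeff f p‖ ^ 2 * (p : ℝ) ^ (-s) :=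
      mul_nonneg (by positivity) (Real.rpow_nonneg (Nat.cast_nonneg p) _)
    linarith
  rw [← Real.log_prod (fun p hp => (hpos p hp).ne')]
  have h1 := Fermat.Agent.H95.DS.rankin_prod_le
    (fun n => ‖ModularFormClass.qCoeff f n‖ ^ 2) C ha hA N hmul s hs P hP
  have h2 := Fermat.Agent.H95.DS.rankin_tsum_le
    (fun n => ‖ModularFormClass.qCoeff f n‖ ^ 2) C ha hA s hs
  have h3 := Fermat.Agent.H95.DS.log_bound_le C hC0 s hs hs2
  have h4 : Real.log (∏ p ∈ P, (1 + ‖ModularFormClass.qCoeff f p‖ ^ 2 * (p : ℝ) ^ (-s)))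
      ≤ Real.log (C * (1 + 1 / (s - 1))) :=
    Real.log_le_log (Finset.prod_pos hpos) (le_trans h1 h2)
  linarith

/-- **DS-4d** (`Fermat.Agent.H20.DS.RankinSharpStatement`), unconditional. -/
theorem ds_rankinSharpStatement : RankinSharpStatement := by
  intro N _ ε f hf B hB
  obtain ⟨C, hC0, hA, hmul⟩ := ds_rankin_hyps hf
  refine ⟨Real.log (2 * C) + (B ^ 2) ^ 2 / 2, fun s hs hs2 P hP => ?_⟩
  have ha : ∀ n : ℕ, 0 ≤ (fun n => ‖ModularFormClass.qCoeff f n‖ ^ 2) n := fun n => by positivity
  have h1 := Fermat.Agent.H95.DS.rankin_sharp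
    (fun n => ‖ModularFormClass.qCoeff f n‖ ^ 2) C ha hA N hmul s hs (B ^ 2) P
    (fun p hp => ⟨(hP p hp).1, (hP p hp).2,
      pow_le_pow_left₀ (norm_nonneg _) (hB p (hP p hp).1 (hP p hp).2) 2⟩)
  have h3 := Fermat.Agent.H95.DS.log_bound_le C hC0 s hs hs2
  linarith

/-- `RankinSharpStatement` in the conditional form announced in the row. -/
theorem ds_rankinSharp_of_eulerLog (_h : EulerLogStatement) : RankinSharpStatement :=
  ds_rankinSharpStatement

/-- `EulerLogStatement` in the conditional form announced in the row. -/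
theorem ds_eulerLog_of_rankin (_h : RankinStatement) : EulerLogStatement :=
  ds_eulerLogStatement

end Fermat.Agent.H44
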