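/-
P-DS (Deligne–Serre, S48), row DS-2F1 (helper44): Hecke's weight-one Eisenstein function
`φ_a = eisOne ℓ (0, a) / (2 π i)` as a modular form on `Γ₁(ℓ)`, with its `q`-expansion.
-/
import Mathlib
import Fermat.Agent.H6.DS.Interfaces

set_option autoImplicit false
set_option linter.style.haveILetI false

noncomputable section

open UpperHalfPlane CongruenceSubgroup ModularFormClass Matrix Filter
open scoped MatrixGroups ModularForm Manifold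

namespace Fermat.Agent.H44

open Fermat.Agent.H6.DS

/-- The function `φ_v = eisOne ℓ v / (2 π i)` on the upper half plane. -/
def dsPhiFun (ℓ : ℕ) (v : Fin 2 → ℤ) : ℍ → ℂ :=
  fun z => eisOne ℓ v (z : ℂ) / (2 * Real.pi * Complex.I)

theorem dsPhi_nonzeroMod {ℓ : ℕ} {a : ℤ} (ha : ¬ (ℓ : ℤ) ∣ a) : NonzeroMod ℓ ![0, a] := by
  intro h
  exact ha (by simpa using h.2)

theorem dsPhi_nonzeroMod_vecMul {ℓ : ℕ} {v : Fin 2 → ℤ} (hv : NonzeroMod ℓ v) (γ : SL(2, ℤ)) :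
    NonzeroMod ℓ (Matrix.vecMul v (γ : Matrix (Fin 2) (Fin 2) ℤ)) := by
  intro h
  apply hv
  obtain ⟨h0, h1⟩ := h
  have hdet : (γ : Matrix (Fin 2) (Fin 2) ℤ) 0 0 * (γ : Matrix (Fin 2) (Fin 2) ℤ) 1 1
      - (γ : Matrix (Fin 2) (Fin 2) ℤ) 0 1 * (γ : Matrix (Fin 2) (Fin 2) ℤ) 1 0 = 1 := by
    have := γ.det_coe
    rw [Matrix.det_fin_two] at this
    exact this
  have e0 : Matrix.vecMul v (γ : Matrix (Fin 2) (Fin 2) ℤ) 0
      = v 0 * (γ : Matrix (Fin 2) (Fin 2) ℤ) 0 0 + v 1 * (γ : Matrix (Fin 2) (Fin 2) ℤ) 1 0 := by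
    simp [Matrix.vecMul, dotProduct, Fin.sum_univ_two]
  have e1 : Matrix.vecMul v (γ : Matrix (Fin 2) (Fin 2) ℤ) 1
      = v 0 * (γ : Matrix (Fin 2) (Fin 2) ℤ) 0 1 + v 1 * (γ : Matrix (Fin 2) (Fin 2) ℤ) 1 1 := by
    simp [Matrix.vecMul, dotProduct, Fin.sum_univ_two]
  rw [e0] at h0
  rw [e1] at h1
  constructor
  · have : v 0 = (v 0 * (γ : Matrix (Fin 2) (Fin 2) ℤ) 0 0
        + v 1 * (γ : Matrix (Fin 2) (Fin 2) ℤ) 1 0) * (γ : Matrix (Fin 2) (Fin 2) ℤ) 1 1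
        - (v 0 * (γ : Matrix (Fin 2) (Fin 2) ℤ) 0 1
          + v 1 * (γ : Matrix (Fin 2) (Fin 2) ℤ) 1 1) * (γ : Matrix (Fin 2) (Fin 2) ℤ) 1 0 := by
      linear_combination (-(v 0)) * hdet
    rw [this]
    exact dvd_sub (Dvd.dvd.mul_right h0 _) (Dvd.dvd.mul_right h1 _)
  · have : v 1 = (v 0 * (γ : Matrix (Fin 2) (Fin 2) ℤ) 0 1
        + v 1 * (γ : Matrix (Fin 2) (Fin 2) ℤ) 1 1) * (γ : Matrix (Fin 2) (Fin 2) ℤ) 0 0
        - (v 0 * (γ : Matrix (Fin 2) (Fin 2) ℤ) 0 0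
          + v 1 * (γ : Matrix (Fin 2) (Fin 2) ℤ) 1 0) * (γ : Matrix (Fin 2) (Fin 2) ℤ) 0 1 := by
      linear_combination (-(v 1)) * hdet
    rw [this]
    exact dvd_sub (Dvd.dvd.mul_right h1 _) (Dvd.dvd.mul_right h0 _)

/-- The weight-one slash action of `SL(2, ℤ)` permutes the functions `φ_v`. -/
theorem dsPhi_slash (hT : EisOneTransformStatement) {ℓ : ℕ} (hℓ : 2 ≤ ℓ) {v : Fin 2 → ℤ}
    (hv : NonzeroMod ℓ v) (γ : SL(2, ℤ)) :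
    (dsPhiFun ℓ v) ∣[(1 : ℤ)] γ
      = dsPhiFun ℓ (Matrix.vecMul v (γ : Matrix (Fin 2) (Fin 2) ℤ)) := by
  ext z
  rw [ModularForm.SL_slash_apply]
  unfold dsPhiFun
  rw [(hT ℓ hℓ v hv).1 z γ]
  have hd : denom γ z ≠ 0 := denom_ne_zero γ z
  rw [_root_.zpow_neg, zpow_one]
  field_simp

/-- `φ_{v + ℓ b} = φ_v`. -/
theorem dsPhi_add_smul (hT : EisOneTransformStatement) {ℓ : ℕ} (hℓ : 2 ≤ ℓ) {v : Fin 2 → ℤ}
    (hv : NonzeroMod ℓ v) (b : Fin 2 → ℤ) :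
    dsPhiFun ℓ (v + (ℓ : ℤ) • b) = dsPhiFun ℓ v := by
  ext z
  unfold dsPhiFun
  rw [(hT ℓ hℓ v hv).2 z b]

/-- For `γ ∈ Γ₁(ℓ)` the row vector `(0, a) γ` is congruent to `(0, a)` modulo `ℓ`. -/
theorem dsPhi_vecMul_Gamma1 {ℓ : ℕ} (a : ℤ) {γ : SL(2, ℤ)} (hγ : γ ∈ Gamma1 ℓ) :
    ∃ b : Fin 2 → ℤ,
      Matrix.vecMul ![0, a] (γ : Matrix (Fin 2) (Fin 2) ℤ) = ![0, a] + (ℓ : ℤ) • b := by
  rw [Gamma1_mem] at hγ
  obtain ⟨-, h11, h10⟩ := hγ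
  have d10 : (ℓ : ℤ) ∣ (γ : Matrix (Fin 2) (Fin 2) ℤ) 1 0 :=
    (ZMod.intCast_zmod_eq_zero_iff_dvd _ _).mp h10
  have d11 : (ℓ : ℤ) ∣ (γ : Matrix (Fin 2) (Fin 2) ℤ) 1 1 - 1 := by
    have : (((γ : Matrix (Fin 2) (Fin 2) ℤ) 1 1 - 1 : ℤ) : ZMod ℓ) = 0 := by
      push_cast
      rw [h11, sub_self]
    exact (ZMod.intCast_zmod_eq_zero_iff_dvd _ _).mp this
  obtain ⟨c, hc⟩ := d10
  obtain ⟨d, hd⟩ := d11
  refine ⟨![a * c, a * d], ?_⟩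
  ext i
  fin_cases i
  · simp [Matrix.vecMul, dotProduct, Fin.sum_univ_two, hc]
    ring
  · have hd' : (γ : Matrix (Fin 2) (Fin 2) ℤ) 1 1 = 1 + ℓ * d := by linarith
    simp [Matrix.vecMul, dotProduct, Fin.sum_univ_two, hd']
    ring

theorem dsPhi_mdifferentiable (hH : EisOneHolomorphicStatement) {ℓ : ℕ} (hℓ : 2 ≤ ℓ)
    {v : Fin 2 → ℤ} (hv : NonzeroMod ℓ v) : MDiff (dsPhiFun ℓ v) := by
  rw [UpperHalfPlane.mdifferentiable_iff]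
  have h1 : DifferentiableOn ℂ (fun z : ℂ => eisOne ℓ v z / (2 * Real.pi * Complex.I))
      {z : ℂ | 0 < z.im} := (hH ℓ hℓ v hv).div_const _
  refine h1.congr ?_
  intro z hz
  simp only [Function.comp_apply, dsPhiFun]
  rw [ofComplex_apply_of_im_pos hz]

theorem dsPhi_isBoundedAtImInfty (hB : EisOneBoundedStatement) {ℓ : ℕ} (hℓ : 2 ≤ ℓ)
    {v : Fin 2 → ℤ} (hv : NonzeroMod ℓ v) : IsBoundedAtImInfty (dsPhiFun ℓ v) := by
  have h1 := hB ℓ hℓ v hv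
  have h2 : IsBoundedAtImInfty (fun _ : ℍ => (2 * Real.pi * Complex.I : ℂ)⁻¹) :=
    Filter.const_boundedAtFilter _ _
  have h3 := h1.mul h2
  have e : dsPhiFun ℓ v
      = (fun z : ℍ => eisOne ℓ v (z : ℂ)) * (fun _ : ℍ => (2 * Real.pi * Complex.I : ℂ)⁻¹) := by
    ext z
    simp [dsPhiFun, div_eq_mul_inv]
  rw [e]
  exact h3

/-- `φ_a` as a modular form of weight one on `Γ₁(ℓ)`. -/
def dsPhiForm (hT : EisOneTransformStatement) (hH : EisOneHolomorphicStatement)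
    (hB : EisOneBoundedStatement) (ℓ : ℕ) (hℓ : 2 ≤ ℓ) (a : ℤ) (ha : ¬ (ℓ : ℤ) ∣ a) :
    ModularForm (Gamma1 ℓ) 1 where
  toFun := dsPhiFun ℓ ![0, a]
  slash_action_eq' A hA := by
    obtain ⟨A, (hA : A ∈ Gamma1 ℓ), rfl⟩ := hA
    change (dsPhiFun ℓ ![0, a]) ∣[(1 : ℤ)] A = dsPhiFun ℓ ![0, a]
    rw [dsPhi_slash hT hℓ (dsPhi_nonzeroMod ha) A]
    obtain ⟨b, hb⟩ := dsPhi_vecMul_Gamma1 a hA
    rw [hb, dsPhi_add_smul hT hℓ (dsPhi_nonzeroMod ha) b]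
  holo' := dsPhi_mdifferentiable hH hℓ (dsPhi_nonzeroMod ha)
  bdd_at_cusps' {c} hc := by
    haveI : NeZero ℓ := ⟨by omega⟩
    rw [Subgroup.IsArithmetic.isCusp_iff_isCusp_SL2Z] at hc
    rw [OnePoint.isBoundedAt_iff_forall_SL2Z hc]
    intro γ _
    show IsBoundedAtImInfty ((dsPhiFun ℓ ![0, a]) ∣[(1 : ℤ)] γ)
    rw [dsPhi_slash hT hℓ (dsPhi_nonzeroMod ha) γ]
    exact dsPhi_isBoundedAtImInfty hB hℓ (dsPhi_nonzeroMod_vecMul (dsPhi_nonzeroMod ha) γ)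

theorem dsPhiForm_apply (hT : EisOneTransformStatement) (hH : EisOneHolomorphicStatement)
    (hB : EisOneBoundedStatement) (ℓ : ℕ) (hℓ : 2 ≤ ℓ) (a : ℤ) (ha : ¬ (ℓ : ℤ) ∣ a) (z : ℍ) :
    dsPhiForm hT hH hB ℓ hℓ a ha z = eisOne ℓ ![0, a] (z : ℂ) / (2 * Real.pi * Complex.I) :=
  rfl

theorem dsPhi_one_mem_strictPeriods (N : ℕ) :
    (1 : ℝ) ∈ ((Gamma1 N : Subgroup SL(2, ℤ)) : Subgroup (GL (Fin 2) ℝ)).strictPeriods := by
  rw [CongruenceSubgroup.strictPeriods_Gamma1]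
  exact AddSubgroup.mem_zmultiples 1

/-- The coefficient sequence of `φ_a`. -/
def dsPhiCoeffSeq (ℓ : ℕ) (a : ℤ) : ℕ → ℂ :=
  fun n => if n = 0 then phiConst ℓ a else phiCoeff ℓ a n

theorem dsPhi_hasSum (hQ : EisOneQExpStatement) (ℓ : ℕ) (hℓ : 2 ≤ ℓ) (a : ℤ)
    (ha : ¬ (ℓ : ℤ) ∣ a) (τ : ℍ) :
    HasSum (fun m : ℕ => dsPhiCoeffSeq ℓ a m • Function.Periodic.qParam 1 τ ^ m)
      (dsPhiFun ℓ ![0, a] τ) := by
  have h := hQ ℓ hℓ a ha (τ : ℂ) τ.im_pos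
  have hq : ∀ m : ℕ, Function.Periodic.qParam 1 (τ : ℂ) ^ m
      = Complex.exp (2 * Real.pi * Complex.I * m * τ) := by
    intro m
    rw [Function.Periodic.qParam, ← Complex.exp_nat_mul]
    congr 1
    push_cast
    ring
  rw [← hasSum_nat_add_iff' 1]
  have e0 : ∑ i ∈ Finset.range 1,
      dsPhiCoeffSeq ℓ a i • Function.Periodic.qParam 1 (τ : ℂ) ^ i = phiConst ℓ a := by
    simp [dsPhiCoeffSeq]
  rw [e0]
  have hfun : (fun n : ℕ => dsPhiCoeffSeq ℓ a (n + 1)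
      • Function.Periodic.qParam 1 (τ : ℂ) ^ (n + 1))
      = (fun n : ℕ => phiCoeff ℓ a (n + 1) *
        Complex.exp (2 * Real.pi * Complex.I * (n + 1) * τ)) := by
    funext n
    rw [hq (n + 1)]
    simp [dsPhiCoeffSeq]
  rw [hfun]
  exact h

/-- **DS-2F1** (`PhiFormStatement`): `φ_a` is a modular form of weight one on `Γ₁(ℓ)` with the
expected `q`-expansion. -/
theorem phiForm (hT : EisOneTransformStatement) (hH : EisOneHolomorphicStatement)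
    (hQ : EisOneQExpStatement) (hB : EisOneBoundedStatement) : PhiFormStatement := by
  intro ℓ hℓ a ha
  refine ⟨dsPhiForm hT hH hB ℓ hℓ a ha, fun z => rfl, ?_, ?_⟩
  · have h := ModularFormClass.qExpansion_coeff_unique (c := dsPhiCoeffSeq ℓ a)
      (f := dsPhiForm hT hH hB ℓ hℓ a ha) one_pos (dsPhi_one_mem_strictPeriods ℓ)
      (fun τ => dsPhi_hasSum hQ ℓ hℓ a ha τ) 0
    rw [qCoeff, ← h]
    simp [dsPhiCoeffSeq]
  · intro n hn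
    have h := ModularFormClass.qExpansion_coeff_unique (c := dsPhiCoeffSeq ℓ a)
      (f := dsPhiForm hT hH hB ℓ hℓ a ha) one_pos (dsPhi_one_mem_strictPeriods ℓ)
      (fun τ => dsPhi_hasSum hQ ℓ hℓ a ha τ) n
    rw [qCoeff, ← h]
    have hn0 : n ≠ 0 := by omega
    simp [dsPhiCoeffSeq, hn0]

end Fermat.Agent.H44
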